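/-
S35-GEO, suppliers (FS1) + (FS2) of `H27.frob_cech` / `H27.FrobData` (helper65).

On the concrete two-valuation model `S34.H30.stdV M q A hAtop O₁ w K₀ ϖ j τ` of `X₀(M q)`
(`F₀ = ratForm (M q) K₀`, `A₀ = A ∩ K₀`, charts of `j`, `j⁻¹`, the two Gauss rings restricted to
`F₀`), for a Frobenius element `σ` at `A ∣ q`:

* `frobSq N K₀ σ := (tauForm N K₀ σ).trans (tauForm N K₀ σ)` (an `abbrev`: every statement below
  applies verbatim to the explicit term) : the square of the Frobenius on the `K₀`-form;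
  `frobSq_eq_tauForm_mul` (it is `tauForm (σ * σ)`), `coe_frobSq` (`ι ∘ S₀ = gal σ ∘ gal σ ∘ ι`);
* (FS1) `frobSq_mem_chart_iff`, `frobSq_mem_chart_inv_iff` (`S₀` preserves the charts of a rational
  coordinate), `frobSq_mem_gaussOne_iff`, `frobSq_mem_gaussTwo_iff` (`S₀` preserves the two Gauss
  rings restricted to `F₀`) — all for `σ` in the decomposition group;
* (FS2) `frobSq_base` : `S₀ a = a'` with `ϖ ∣ a' - a ^ (q ^ 2)` on the base ring `A₀`;
* `frobData_stdV` : the structure `H27.FrobData` of the model from (FS3) = `ne`, `arch₁`, `arch₂`.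
-/
import Fermat.Agent.S34.H30.Leaves
import Fermat.Agent.S35.H27.FrobModel

set_option autoImplicit false
set_option linter.style.haveILetI false
set_option linter.unusedSectionVars false

open AlgebraicCurve ModularCurve

noncomputable section

namespace Fermat.Agent.S35.H65

open Fermat.Agent.S34.H27 Fermat.Agent.S34.H10 Fermat.Agent.S34.H7
  Fermat.Agent.S18 Fermat.Agent.S18.H74 Fermat.Agent.S18.H19 Fermat.Agent.S34.H19
  Fermat.Agent.S34.H61 Fermat.Agent.S34.H64 Fermat.Agent.S34.H30 Fermat.Agent.S35.H27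

/-! ### Frobenius elements on constants -/

section Frob

variable {K L : Type*} [Field K] [Field L] [Algebra K L]

/-- A Frobenius element at `A` is the `ℓ`-power map modulo the maximal ideal of `A`. -/
theorem frob_apply_sub_pow_mem_nonunits {A : ValuationSubring L} {s : L ≃ₐ[K] L} {ℓ : ℕ}
    (hs : A.IsFrobeniusAt s ℓ) {a : L} (ha : a ∈ A) : s a - a ^ ℓ ∈ A.nonunits := by
  have h1 := hs.smul_residue_eq (IsLocalRing.residue A ⟨a, ha⟩)
  rw [← IsLocalRing.ResidueField.residue_smul, ← map_pow] at h1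
  have h2 : IsLocalRing.residue A
      ((⟨s, hs.mem_decompositionSubgroup⟩ : A.decompositionSubgroup K) • (⟨a, ha⟩ : A)
        - ⟨a, ha⟩ ^ ℓ) = 0 := by
    rw [map_sub, h1, sub_self]
  rw [IsLocalRing.residue_eq_zero_iff] at h2
  exact (ValuationSubring.coe_mem_nonunits_iff (A := A)).mpr h2

/-- The square of a Frobenius element at `A` is the `ℓ²`-power map modulo the maximal ideal. -/
theorem frob_sq_apply_sub_pow_mem_nonunits {A : ValuationSubring L} {s : L ≃ₐ[K] L} {ℓ : ℕ}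
    (hs : A.IsFrobeniusAt s ℓ) {a : L} (ha : a ∈ A) : s (s a) - a ^ (ℓ ^ 2) ∈ A.nonunits := by
  have hd := hs.mem_decompositionSubgroup
  have h1 : s (s a - a ^ ℓ) ∈ A.nonunits :=
    Fermat.Agent.S05.H63.apply_mem_nonunits_of_mem_decompositionSubgroup hd
      (frob_apply_sub_pow_mem_nonunits hs ha)
  have h2 : s (a ^ ℓ) - (a ^ ℓ) ^ ℓ ∈ A.nonunits :=
    frob_apply_sub_pow_mem_nonunits hs (pow_mem ha ℓ)
  have e : s (s a) - a ^ (ℓ ^ 2) = s (s a - a ^ ℓ) + (s (a ^ ℓ) - (a ^ ℓ) ^ ℓ) := by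
    rw [map_sub, ← pow_mul, pow_two]
    ring
  rw [e]
  have h3 := Ideal.add_mem (IsLocalRing.maximalIdeal A)
    ((ValuationSubring.coe_mem_nonunits_iff (A := A)
      (a := ⟨s (s a - a ^ ℓ), A.nonunits_subset h1⟩)).mp h1)
    ((ValuationSubring.coe_mem_nonunits_iff (A := A)
      (a := ⟨s (a ^ ℓ) - (a ^ ℓ) ^ ℓ, A.nonunits_subset h2⟩)).mp h2)
  exact (ValuationSubring.coe_mem_nonunits_iff (A := A)).mpr h3

end Frob

/-! ### The Galois action is multiplicative -/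

/-- The arithmetic Galois action on the function field is multiplicative. -/
theorem arithmeticRingAut_mul_apply (N : ℕ) (σ τ : Kb ≃ₐ[ℚ] Kb) (f : FN N) :
    arithmeticRingAut (modularFunctionFieldFull N) (σ * τ) f
      = arithmeticRingAut (modularFunctionFieldFull N) σ
          (arithmeticRingAut (modularFunctionFieldFull N) τ f) := by
  apply Subtype.ext
  show coeffMap ((σ * τ : Kb ≃ₐ[ℚ] Kb) : Kb →+* Kb) (f : LaurentSeries Kb)
    = coeffMap (σ : Kb →+* Kb) (coeffMap (τ : Kb →+* Kb) (f : LaurentSeries Kb))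
  rw [coeffMap_coeffMap]
  exact coeffMap_congr (RingHom.ext fun _ => rfl) _

section Form

variable (N : ℕ) (K₀ : IntermediateField ℚ Kb) [Normal ℚ K₀]

/-- `tauForm` is multiplicative. -/
theorem tauForm_mul_apply (σ τ : Kb ≃ₐ[ℚ] Kb) (y : ↥(ratForm N K₀)) :
    tauForm N K₀ (σ * τ) y = tauForm N K₀ σ (tauForm N K₀ τ y) :=
  Subtype.ext (arithmeticRingAut_mul_apply N σ τ (y : FN N))

/-- `tauForm σ` preserves `O ∩ F₀` (in both directions) when the Galois actions of `σ` and of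
`σ⁻¹` preserve `O`. -/
theorem tauForm_mem_comap_iff (σ : Kb ≃ₐ[ℚ] Kb) (O : ValuationSubring (FN N))
    (hO : ∀ f ∈ O, arithmeticRingAut (modularFunctionFieldFull N) σ f ∈ O)
    (hO' : ∀ f ∈ O, arithmeticRingAut (modularFunctionFieldFull N) σ.symm f ∈ O)
    (y : ↥(ratForm N K₀)) :
    tauForm N K₀ σ y ∈ O.comap (algebraMap ↥(ratForm N K₀) (FN N)) ↔
      y ∈ O.comap (algebraMap ↥(ratForm N K₀) (FN N)) := by
  constructor
  · intro h
    have h2 := tauForm_mem_comap N K₀ σ.symm O hO' h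
    rwa [tauForm_symm_tauForm] at h2
  · exact fun h => tauForm_mem_comap N K₀ σ O hO h

/-- **The square of the Frobenius on the `K₀`-form**: `S₀ = τ_σ ∘ τ_σ`. -/
abbrev frobSq (σ : Kb ≃ₐ[ℚ] Kb) : ↥(ratForm N K₀) ≃+* ↥(ratForm N K₀) :=
  (tauForm N K₀ σ).trans (tauForm N K₀ σ)

theorem frobSq_apply (σ : Kb ≃ₐ[ℚ] Kb) (y : ↥(ratForm N K₀)) :
    frobSq N K₀ σ y = tauForm N K₀ σ (tauForm N K₀ σ y) :=
  rfl

theorem frobSq_eq_tauForm_mul (σ : Kb ≃ₐ[ℚ] Kb) :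
    frobSq N K₀ σ = tauForm N K₀ (σ * σ) :=
  RingEquiv.ext fun y => (tauForm_mul_apply N K₀ σ σ y).symm

/-- **(FS1-ι)** `ι ∘ S₀ = gal σ ∘ gal σ ∘ ι`. -/
theorem coe_frobSq (σ : Kb ≃ₐ[ℚ] Kb) (y : ↥(ratForm N K₀)) :
    ((frobSq N K₀ σ y : ↥(ratForm N K₀)) : FN N)
      = arithmeticRingAut (modularFunctionFieldFull N) σ
          (arithmeticRingAut (modularFunctionFieldFull N) σ (y : FN N)) :=
  rfl

variable (A : ValuationSubring Kb)

/-- **(FS1-C)** `S₀` preserves the chart of a rational coordinate. -/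
theorem frobSq_mem_chart_iff {σ : Kb ≃ₐ[ℚ] Kb} (hσ : σ ∈ A.decompositionSubgroup ℚ)
    (x₀ : ↥(ratForm N K₀)) (hx₀ : (x₀ : FN N) ∈ Set.range (ratEmb N)) (y : ↥(ratForm N K₀)) :
    letI := H19.algComap (A.comap (algebraMap K₀ Kb)) (ratForm N K₀)
    ((tauForm N K₀ σ).trans (tauForm N K₀ σ)) y ∈ H19.chart (↥(A.comap (algebraMap K₀ Kb))) x₀ ↔
      y ∈ H19.chart (↥(A.comap (algebraMap K₀ Kb))) x₀ := by
  letI := H19.algComap (A.comap (algebraMap K₀ Kb)) (ratForm N K₀)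
  have h1 : tauForm N K₀ σ (tauForm N K₀ σ y) ∈ H19.chart (↥(A.comap (algebraMap K₀ Kb))) x₀ ↔
      tauForm N K₀ σ y ∈ H19.chart (↥(A.comap (algebraMap K₀ Kb))) x₀ :=
    tauForm_mem_chart_iff N K₀ A σ hσ x₀ hx₀ (tauForm N K₀ σ y)
  have h2 : tauForm N K₀ σ y ∈ H19.chart (↥(A.comap (algebraMap K₀ Kb))) x₀ ↔
      y ∈ H19.chart (↥(A.comap (algebraMap K₀ Kb))) x₀ :=
    tauForm_mem_chart_iff N K₀ A σ hσ x₀ hx₀ y
  exact h1.trans h2

/-- **(FS1-C)** for the chart at infinity. -/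
theorem frobSq_mem_chart_inv_iff {σ : Kb ≃ₐ[ℚ] Kb} (hσ : σ ∈ A.decompositionSubgroup ℚ)
    (x₀ : ↥(ratForm N K₀)) (hx₀ : (x₀ : FN N) ∈ Set.range (ratEmb N)) (y : ↥(ratForm N K₀)) :
    letI := H19.algComap (A.comap (algebraMap K₀ Kb)) (ratForm N K₀)
    ((tauForm N K₀ σ).trans (tauForm N K₀ σ)) y ∈
        H19.chart (↥(A.comap (algebraMap K₀ Kb))) x₀⁻¹ ↔
      y ∈ H19.chart (↥(A.comap (algebraMap K₀ Kb))) x₀⁻¹ := by
  letI := H19.algComap (A.comap (algebraMap K₀ Kb)) (ratForm N K₀)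
  have h1 : tauForm N K₀ σ (tauForm N K₀ σ y) ∈
        H19.chart (↥(A.comap (algebraMap K₀ Kb))) x₀⁻¹ ↔
      tauForm N K₀ σ y ∈ H19.chart (↥(A.comap (algebraMap K₀ Kb))) x₀⁻¹ :=
    tauForm_mem_chart_inv_iff N K₀ A σ hσ x₀ hx₀ (tauForm N K₀ σ y)
  have h2 : tauForm N K₀ σ y ∈ H19.chart (↥(A.comap (algebraMap K₀ Kb))) x₀⁻¹ ↔
      y ∈ H19.chart (↥(A.comap (algebraMap K₀ Kb))) x₀⁻¹ :=
    tauForm_mem_chart_inv_iff N K₀ A σ hσ x₀ hx₀ y
  exact h1.trans h2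

/-- **(FS2)** on the base ring `A₀ = A ∩ K₀`: `S₀ a = a'` with `a' ≡ a ^ (q²)` modulo the
uniformiser. -/
theorem frobSq_base [FiniteDimensional ℚ K₀] (hAtop : A ≠ ⊤) {q : ℕ} {σ : Kb ≃ₐ[ℚ] Kb}
    (hσ : A.IsFrobeniusAt σ q) (ϖ : ↥(A.comap (algebraMap K₀ Kb))) (hϖ : Irreducible ϖ)
    (a : ↥(A.comap (algebraMap K₀ Kb))) :
    letI := H19.algComap (A.comap (algebraMap K₀ Kb)) (ratForm N K₀)
    ∃ a' : ↥(A.comap (algebraMap K₀ Kb)),
      ((tauForm N K₀ σ).trans (tauForm N K₀ σ))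
          (algebraMap ↥(A.comap (algebraMap K₀ Kb)) ↥(ratForm N K₀) a)
        = algebraMap ↥(A.comap (algebraMap K₀ Kb)) ↥(ratForm N K₀) a' ∧ ϖ ∣ a' - a ^ (q ^ 2) := by
  letI := H19.algComap (A.comap (algebraMap K₀ Kb)) (ratForm N K₀)
  haveI := Fermat.Agent.S34.H78.isDVR_comap hAtop K₀
  have hd := hσ.mem_decompositionSubgroup
  set c : Kb := ((a : K₀) : Kb) with hc
  have hcA : c ∈ A := a.2
  have hK : σ (σ c) ∈ K₀ := map_mem_of_normal K₀ σ (map_mem_of_normal K₀ σ (a : K₀).2)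
  have hA' : σ (σ c) ∈ A :=
    Fermat.Agent.S05.H63.apply_mem_of_mem_decompositionSubgroup hd
      (Fermat.Agent.S05.H63.apply_mem_of_mem_decompositionSubgroup hd hcA)
  let a' : ↥(A.comap (algebraMap K₀ Kb)) := ⟨⟨σ (σ c), hK⟩, hA'⟩
  refine ⟨a', ?_, ?_⟩
  · apply Subtype.ext
    rw [coe_frobSq N K₀ σ]
    have h3 : ((algebraMap ↥(A.comap (algebraMap K₀ Kb)) ↥(ratForm N K₀) a : ↥(ratForm N K₀)) :
        FN N) = algebraMap Kb (FN N) c := rfl
    have h4 : ((algebraMap ↥(A.comap (algebraMap K₀ Kb)) ↥(ratForm N K₀) a' : ↥(ratForm N K₀)) :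
        FN N) = algebraMap Kb (FN N) (σ (σ c)) := rfl
    rw [h3, h4, arithmeticRingAut_algebraMap, arithmeticRingAut_algebraMap]
  · -- `a' - a ^ (q²)` is not a unit of `A₀`
    have hnu : σ (σ c) - c ^ (q ^ 2) ∈ A.nonunits := frob_sq_apply_sub_pow_mem_nonunits hσ hcA
    have hb : ((((a' - a ^ (q ^ 2) : ↥(A.comap (algebraMap K₀ Kb))) : K₀)) : Kb)
        = σ (σ c) - c ^ (q ^ 2) := rfl
    have hnot : ¬ IsUnit (a' - a ^ (q ^ 2)) := by
      rintro ⟨⟨b, b', hbb', hb'b⟩, hbe⟩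
      have hbe' : b = a' - a ^ (q ^ 2) := hbe
      have h5 : (((b : K₀) : Kb)) * (((b' : K₀) : Kb)) = 1 := by
        have := congrArg (fun z : ↥(A.comap (algebraMap K₀ Kb)) => (((z : K₀)) : Kb)) hbb'
        simpa using this
      rw [hbe', hb] at h5
      rw [ValuationSubring.mem_nonunits_iff_or] at hnu
      rcases hnu with h0 | hinv
      · rw [h0, zero_mul] at h5
        exact zero_ne_one h5
      · apply hinv
        have h6 : (σ (σ c) - c ^ (q ^ 2))⁻¹ = ((b' : K₀) : Kb) :=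
          inv_eq_of_mul_eq_one_right h5
        rw [h6]
        exact b'.2
    have hmem : a' - a ^ (q ^ 2) ∈ IsLocalRing.maximalIdeal ↥(A.comap (algebraMap K₀ Kb)) :=
      (IsLocalRing.mem_maximalIdeal _).mpr hnot
    rw [(IsDiscreteValuationRing.irreducible_iff_uniformizer ϖ).mp hϖ,
      Ideal.mem_span_singleton] at hmem
    exact hmem

end Form

/-! ### The node level -/

section Node

variable {M q : ℕ} [NeZero M] [hqF : Fact q.Prime] {hqM : ¬ q ∣ M} {A : ValuationSubring Kb}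
  {hA : A.LiesOverPrime q} {O₁ : ValuationSubring (FN (M * q))}
  {w : FN (M * q) ≃+* FN (M * q)}

/-- **(FS1-V)** `S₀` preserves the first Gauss ring restricted to the `K₀`-form. -/
theorem frobSq_mem_gaussOne_iff (hTG : TwoGauss M q hqM A hA O₁ w) (K₀ : IntermediateField ℚ Kb)
    [Normal ℚ K₀] {σ : Kb ≃ₐ[ℚ] Kb} (hσ : σ ∈ A.decompositionSubgroup ℚ)
    (y : ↥(ratForm (M * q) K₀)) :
    ((tauForm (M * q) K₀ σ).trans (tauForm (M * q) K₀ σ)) y ∈
        O₁.comap (algebraMap ↥(ratForm (M * q) K₀) (FN (M * q))) ↔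
      y ∈ O₁.comap (algebraMap ↥(ratForm (M * q) K₀) (FN (M * q))) := by
  have hσ' : σ.symm ∈ A.decompositionSubgroup ℚ := (A.decompositionSubgroup ℚ).inv_mem hσ
  have key : ∀ z : ↥(ratForm (M * q) K₀),
      tauForm (M * q) K₀ σ z ∈ O₁.comap (algebraMap ↥(ratForm (M * q) K₀) (FN (M * q))) ↔
        z ∈ O₁.comap (algebraMap ↥(ratForm (M * q) K₀) (FN (M * q))) := fun z =>
    tauForm_mem_comap_iff (M * q) K₀ σ O₁
      (fun f hf => hTG.galois_mem σ hσ f hf)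
      (fun f hf => hTG.galois_mem σ.symm hσ' f hf) z
  exact (key (tauForm (M * q) K₀ σ y)).trans (key y)

/-- **(FS1-V)** `S₀` preserves the second Gauss ring restricted to the `K₀`-form. -/
theorem frobSq_mem_gaussTwo_iff (hTG : TwoGauss M q hqM A hA O₁ w) (K₀ : IntermediateField ℚ Kb)
    [Normal ℚ K₀] {σ : Kb ≃ₐ[ℚ] Kb} (hσ : σ ∈ A.decompositionSubgroup ℚ)
    (y : ↥(ratForm (M * q) K₀)) :
    ((tauForm (M * q) K₀ σ).trans (tauForm (M * q) K₀ σ)) y ∈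
        (gaussTwo M q O₁ w).comap (algebraMap ↥(ratForm (M * q) K₀) (FN (M * q))) ↔
      y ∈ (gaussTwo M q O₁ w).comap (algebraMap ↥(ratForm (M * q) K₀) (FN (M * q))) := by
  have hσ' : σ.symm ∈ A.decompositionSubgroup ℚ := (A.decompositionSubgroup ℚ).inv_mem hσ
  have key : ∀ z : ↥(ratForm (M * q) K₀),
      tauForm (M * q) K₀ σ z ∈
          (gaussTwo M q O₁ w).comap (algebraMap ↥(ratForm (M * q) K₀) (FN (M * q))) ↔
        z ∈ (gaussTwo M q O₁ w).comap (algebraMap ↥(ratForm (M * q) K₀) (FN (M * q))) := fun z =>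
    tauForm_mem_comap_iff (M * q) K₀ σ (gaussTwo M q O₁ w)
      (fun f hf => galois_mem_gaussTwo hTG hσ hf)
      (fun f hf => galois_mem_gaussTwo hTG hσ' hf) z
  exact (key (tauForm (M * q) K₀ σ y)).trans (key y)

/-- **(FS1) + (FS2) on the concrete model**: the Frobenius data of `stdV` for
`S₀ = (tauForm (M q) K₀ σ).trans (tauForm (M q) K₀ σ)`, `Q = q²`, from (FS3) (`V₁ ≠ V₂` and the
two archimedean clauses).  The inertia slot `τ` of the model is arbitrary. -/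
theorem frobData_stdV (hqM : ¬ q ∣ M) (A : ValuationSubring Kb) (hA : A.LiesOverPrime q)
    (hAtop : A ≠ ⊤) (O₁ : ValuationSubring (FN (M * q))) (w : FN (M * q) ≃+* FN (M * q))
    (hTG : TwoGauss M q hqM A hA O₁ w) (K₀ : IntermediateField ℚ Kb) [FiniteDimensional ℚ K₀]
    [Normal ℚ K₀] (ϖ : ↥(A.comap (algebraMap K₀ Kb))) (hϖ : Irreducible ϖ)
    (j : ↥(ratForm (M * q) K₀)) (hjrat : (j : FN (M * q)) ∈ Set.range (ratEmb (M * q)))
    (τ σ : Kb ≃ₐ[ℚ] Kb) (hσ : A.IsFrobeniusAt σ q)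
    (hne : (stdV M q A hAtop O₁ w K₀ ϖ j τ).V₁ ≠ (stdV M q A hAtop O₁ w K₀ ϖ j τ).V₂)
    (harch₁ : ∀ y : (stdV M q A hAtop O₁ w K₀ ϖ j τ).F₀, ∃ n : ℕ,
      (stdV M q A hAtop O₁ w K₀ ϖ j τ).ϖ ^ n • y ∈ (stdV M q A hAtop O₁ w K₀ ϖ j τ).V₁)
    (harch₂ : ∀ y : (stdV M q A hAtop O₁ w K₀ ϖ j τ).F₀, ∃ n : ℕ,
      (stdV M q A hAtop O₁ w K₀ ϖ j τ).ϖ ^ n • y ∈ (stdV M q A hAtop O₁ w K₀ ϖ j τ).V₂) :
    FrobData (stdV M q A hAtop O₁ w K₀ ϖ j τ) (q ^ 2)
      ((gal (M * q) σ).trans (gal (M * q) σ))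
      ((tauForm (M * q) K₀ σ).trans (tauForm (M * q) K₀ σ)) := by
  have hd := hσ.mem_decompositionSubgroup
  exact
    { ne := hne
      arch₁ := harch₁
      arch₂ := harch₂
      S_mem₁ := fun c => frobSq_mem_chart_iff (M * q) K₀ A hd j hjrat c
      S_mem₂ := fun c => frobSq_mem_chart_inv_iff (M * q) K₀ A hd j hjrat c
      S_V₁ := fun y => frobSq_mem_gaussOne_iff hTG K₀ hd y
      S_V₂ := fun y => frobSq_mem_gaussTwo_iff hTG K₀ hd y
      S_base := fun a => frobSq_base (M * q) K₀ A hAtop hσ ϖ hϖ a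
      ι_S := fun _ => rfl }

end Node

end Fermat.Agent.S35.H65
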