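/-
S35-GEO, L1 + L2 of the concrete layer (helper65): the full structure `H27.FrobData` of the
concrete model `S34.H30.stdV`, UNCONDITIONALLY.

`frobData_stdV_holds` = `H65.frobData_stdV` ((FS1) + (FS2), `FrobSupply.lean`) fed with helper10's
`H10.stdV_neArch` ((FS3): `V₁ ≠ V₂` and the two archimedean clauses).
-/
import Fermat.Agent.S35.H65.FrobSupply
import Fermat.Agent.S35.H10.FS3

set_option autoImplicit false
set_option linter.style.haveILetI false
set_option linter.unusedSectionVars false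

open AlgebraicCurve ModularCurve

noncomputable section

namespace Fermat.Agent.S35.H65

open Fermat.Agent.S34.H27 Fermat.Agent.S34.H10 Fermat.Agent.S34.H7
  Fermat.Agent.S18 Fermat.Agent.S18.H74 Fermat.Agent.S18.H19 Fermat.Agent.S34.H19
  Fermat.Agent.S34.H61 Fermat.Agent.S34.H64 Fermat.Agent.S34.H30 Fermat.Agent.S35.H27

/-- **The Frobenius data of the concrete model** (`L1 + L2` of S35-GEO): for a Frobenius element
`σ` at `A ∣ q`, the automorphism `S₀ = τ_σ ∘ τ_σ` of the `K₀`-form of `F_{Mq}` and `Q = q²` satisfy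
`H27.FrobData` on `stdV M q A hAtop O₁ w K₀ ϖ j τ` (`τ` arbitrary), for a rational coordinate `j`. -/
theorem frobData_stdV_holds {M q : ℕ} [NeZero M] [Fact q.Prime] (hqM : ¬ q ∣ M)
    (A : ValuationSubring Kb) (hA : A.LiesOverPrime q)
    (hAtop : A ≠ ⊤) (O₁ : ValuationSubring (FN (M * q))) (w : FN (M * q) ≃+* FN (M * q))
    (hTG : TwoGauss M q hqM A hA O₁ w) (K₀ : IntermediateField ℚ Kb) [FiniteDimensional ℚ K₀]
    [Normal ℚ K₀] (ϖ : ↥(A.comap (algebraMap K₀ Kb))) (hϖ : Irreducible ϖ)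
    (j : ↥(ratForm (M * q) K₀)) (hjrat : (j : FN (M * q)) ∈ Set.range (ratEmb (M * q)))
    (τ σ : Kb ≃ₐ[ℚ] Kb) (hσ : A.IsFrobeniusAt σ q) :
    FrobData (stdV M q A hAtop O₁ w K₀ ϖ j τ) (q ^ 2)
      ((gal (M * q) σ).trans (gal (M * q) σ))
      ((tauForm (M * q) K₀ σ).trans (tauForm (M * q) K₀ σ)) := by
  obtain ⟨hne, ha₁, ha₂⟩ := Fermat.Agent.S35.H10.stdV_neArch hTG hAtop K₀ ϖ hϖ j τ
  exact frobData_stdV hqM A hA hAtop O₁ w hTG K₀ ϖ hϖ j hjrat τ σ hσ hne ha₁ ha₂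

end Fermat.Agent.S35.H65
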