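/-
S35-GEO, the descent block of the root (helper65).

The S34 descent leaf `H30.descentLeaf` (a normal number field `K₀` over which `u` is defined, with
(DIV) and (RAT) on the concrete model `stdV`) with EXTRA DATA put into `K₀`:

* `exists_descent_with` : for a finite set `Zc` of constants and a finite set `T` of functions of
  ANY other level `N'`, the field `K₀` can be chosen with `Zc ⊆ K₀` and `T ⊆ ratForm N' K₀`;
* `exists_descent_norms` : the form used by the root of S35-GEO — `u` of level `M q` together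
  with the constants `c`, `c'` and the functions `h`, `h'` of level `M` of its two norm relations
  `N_α u = c · h ^ m`, `N_β u = c' · h' ^ m`.
-/
import Fermat.Agent.S34.H30.DescentClose

set_option autoImplicit false
set_option linter.style.haveILetI false
set_option linter.unusedSectionVars false

open AlgebraicCurve ModularCurve

noncomputable section

namespace Fermat.Agent.S35.H65

open Fermat.Agent.S34.H27 Fermat.Agent.S34.H10 Fermat.Agent.S34.H7
  Fermat.Agent.S18 Fermat.Agent.S18.H74 Fermat.Agent.S18.H19 Fermat.Agent.S34.H19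
  Fermat.Agent.S34.H61 Fermat.Agent.S34.H64 Fermat.Agent.S34.H30

/-- **The descent with extra data**: a normal number field `K₀ ⊆ ℚ̄` over which `u` is defined,
containing a given finite set of constants and over which a given finite set of functions of
another level is defined, with the divisibility clause (DIV) and the rationality clause (RAT) on
the concrete model. -/
theorem exists_descent_with (M q : ℕ) [NeZero M] [Fact q.Prime] (A : ValuationSubring Kb)
    (hAtop : A ≠ ⊤) (O₁ : ValuationSubring (FN (M * q))) (w : FN (M * q) ≃+* FN (M * q))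
    (m : ℕ) (u : FN (M * q)) (hu : u ≠ 0)
    (hord : ∀ v : Place Kb (FN (M * q)), (m : ℤ) ∣ v.ord u)
    (Zc : Finset Kb) (N' : ℕ) (T : Finset (FN N')) :
    ∃ (K₀ : IntermediateField ℚ Kb) (_ : FiniteDimensional ℚ K₀) (_ : Normal ℚ K₀)
      (u₀ : ↥(ratForm (M * q) K₀)), (u₀ : FN (M * q)) = u ∧ (∀ z ∈ Zc, z ∈ K₀) ∧
      (∀ t ∈ T, t ∈ ratForm N' K₀) ∧
      ∀ (ϖ : ↥(A.comap (algebraMap K₀ Kb))) (j : ↥(ratForm (M * q) K₀)) (σ : Kb ≃ₐ[ℚ] Kb),
        (stdV M q A hAtop O₁ w K₀ ϖ j σ).DivK m u₀ ∧ (stdV M q A hAtop O₁ w K₀ ϖ j σ).RatK u₀ := by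
  classical
  haveI : NeZero (M * q) := ⟨Nat.mul_ne_zero (NeZero.ne M) (Fact.out : q.Prime).ne_zero⟩
  obtain ⟨Z, hZ⟩ := Fermat.Agent.S34.H78.rat_ratForm (M * q) u hu
  obtain ⟨ZT, hZT⟩ := exists_finset_forall_mem_ratForm N' T
  obtain ⟨K₀, hfin, hnorm, hK₀⟩ := exists_normal_numberField (Z ∪ Zc ∪ ZT)
  have hK₀Z : ∀ z ∈ Z, z ∈ K₀ := fun z hz =>
    hK₀ z (Finset.mem_union_left _ (Finset.mem_union_left _ hz))
  have hK₀c : ∀ z ∈ Zc, z ∈ K₀ := fun z hz =>
    hK₀ z (Finset.mem_union_left _ (Finset.mem_union_right _ hz))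
  have hK₀T : ∀ z ∈ ZT, z ∈ K₀ := fun z hz => hK₀ z (Finset.mem_union_right _ hz)
  obtain ⟨u₀, hu₀, hrat⟩ := hZ K₀ hK₀Z
  refine ⟨K₀, hfin, hnorm, u₀, hu₀, hK₀c, hZT K₀ hK₀T, fun ϖ j σ => ⟨?_, ?_⟩⟩
  · intro V hinv _
    exact Fermat.Agent.S34.H78.div_modular (M * q) K₀ m u₀
      (fun P => by rw [hu₀]; exact hord P) V
      (Fermat.Agent.S18.H61.algebraMap_mem_of_forall_inv_mem (A.comap (algebraMap K₀ Kb)) V hinv)
  · intro V hinv _ hnu y hy
    exact hrat A V hinv hnu y hy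

/-- **The descent block of the root of S35-GEO**: a normal number field `K₀` over which `u`
(level `M q`), the constants `c`, `c'` and the functions `h`, `h'` (level `M`) of the two norm
relations of `u` are defined, with (DIV) and (RAT) on the concrete model. -/
theorem exists_descent_norms (M q : ℕ) [NeZero M] [Fact q.Prime] (A : ValuationSubring Kb)
    (hAtop : A ≠ ⊤) (O₁ : ValuationSubring (FN (M * q))) (w : FN (M * q) ≃+* FN (M * q))
    (m : ℕ) (u : FN (M * q)) (hu : u ≠ 0)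
    (hord : ∀ v : Place Kb (FN (M * q)), (m : ℤ) ∣ v.ord u)
    (c c' : Kb) (h h' : FN M) :
    ∃ (K₀ : IntermediateField ℚ Kb) (_ : FiniteDimensional ℚ K₀) (_ : Normal ℚ K₀)
      (u₀ : ↥(ratForm (M * q) K₀)) (c₀ c₀' : K₀) (h₀ h₀' : ↥(ratForm M K₀)),
      (u₀ : FN (M * q)) = u ∧ (c₀ : Kb) = c ∧ (c₀' : Kb) = c' ∧ (h₀ : FN M) = h ∧
      (h₀' : FN M) = h' ∧
      ∀ (ϖ : ↥(A.comap (algebraMap K₀ Kb))) (j : ↥(ratForm (M * q) K₀)) (σ : Kb ≃ₐ[ℚ] Kb),
        (stdV M q A hAtop O₁ w K₀ ϖ j σ).DivK m u₀ ∧ (stdV M q A hAtop O₁ w K₀ ϖ j σ).RatK u₀ := by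
  classical
  obtain ⟨K₀, hfin, hnorm, u₀, hu₀, hc, hT, hDR⟩ :=
    exists_descent_with M q A hAtop O₁ w m u hu hord {c, c'} M {h, h'}
  have hcK : c ∈ K₀ := hc c (by simp)
  have hcK' : c' ∈ K₀ := hc c' (by simp)
  have hhK : h ∈ ratForm M K₀ := hT h (by simp)
  have hhK' : h' ∈ ratForm M K₀ := hT h' (by simp)
  exact ⟨K₀, hfin, hnorm, u₀, ⟨c, hcK⟩, ⟨c', hcK'⟩, ⟨h, hhK⟩, ⟨h', hhK'⟩, hu₀, rfl, rfl, rfl, rfl,
    hDR⟩

end Fermat.Agent.S35.H65
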