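/-
S35-GEO, leaf (L1) of `S35/H27/FrobLeaves.lean`, VERBATIM (helper65):

  `frobSLeaf : H27.FrobSLeaf`

(the Frobenius square `S₀ = H27.frobSq (M q) K₀ σ` on the concrete model `S34.H30.stdV` preserves
the two charts and the two Gauss rings, is the `q²`-power map on the residue field of the base and
induces `σ²` on `F_{Mq}`), from `H65.FrobSupply`.  Also `frobS_stdV` (the same for any rational
coordinate `j`) and `frobData_of_frobS_frobNe` (`FrobS` + `FrobNe` give `H27.FrobData`).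
-/
import Fermat.Agent.S35.H65.FrobSupply
import Fermat.Agent.S35.H27.FrobLeaves

set_option autoImplicit false
set_option linter.style.haveILetI false
set_option linter.unusedSectionVars false

open AlgebraicCurve ModularCurve

noncomputable section

namespace Fermat.Agent.S35.H65

open Fermat.Agent.S34.H27 Fermat.Agent.S34.H10 Fermat.Agent.S34.H7
  Fermat.Agent.S18 Fermat.Agent.S18.H74 Fermat.Agent.S18.H19 Fermat.Agent.S34.H19
  Fermat.Agent.S34.H61 Fermat.Agent.S34.H64 Fermat.Agent.S34.H30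

/-- The `S`-fields of the concrete model, for a rational coordinate `j`. -/
theorem frobS_stdV {M q : ℕ} [NeZero M] [Fact q.Prime] (hqM : ¬ q ∣ M)
    (A : ValuationSubring Kb) (hA : A.LiesOverPrime q)
    (hAtop : A ≠ ⊤) (O₁ : ValuationSubring (FN (M * q))) (w : FN (M * q) ≃+* FN (M * q))
    (hTG : TwoGauss M q hqM A hA O₁ w) (K₀ : IntermediateField ℚ Kb) [FiniteDimensional ℚ K₀]
    [Normal ℚ K₀] (ϖ : ↥(A.comap (algebraMap K₀ Kb))) (hϖ : Irreducible ϖ)
    (j : ↥(ratForm (M * q) K₀)) (hjrat : (j : FN (M * q)) ∈ Set.range (ratEmb (M * q)))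
    (σ σ' : Kb ≃ₐ[ℚ] Kb) (hσ : A.IsFrobeniusAt σ q) :
    Fermat.Agent.S35.H27.FrobS (stdV M q A hAtop O₁ w K₀ ϖ j σ') (q ^ 2)
      ((gal (M * q) σ).trans (gal (M * q) σ))
      (Fermat.Agent.S35.H27.frobSq (M * q) K₀ σ) := by
  have hd := hσ.mem_decompositionSubgroup
  exact
    { S_mem₁ := fun c => frobSq_mem_chart_iff (M * q) K₀ A hd j hjrat c
      S_mem₂ := fun c => frobSq_mem_chart_inv_iff (M * q) K₀ A hd j hjrat c
      S_V₁ := fun y => frobSq_mem_gaussOne_iff hTG K₀ hd y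
      S_V₂ := fun y => frobSq_mem_gaussTwo_iff hTG K₀ hd y
      S_base := fun a => frobSq_base (M * q) K₀ A hAtop hσ ϖ hϖ a
      ι_S := fun _ => rfl }

/-- **Leaf (L1) of S35-GEO, verbatim.** -/
theorem frobSLeaf : Fermat.Agent.S35.H27.FrobSLeaf := by
  intro M q _ hqF hqM A hA hAtop O₁ w hTG x₀ hx₀ K₀ _ _ ϖ hϖ j hj σ σ' hσ
  haveI : NeZero q := ⟨hqF.out.ne_zero⟩
  obtain ⟨g, hg⟩ := hx₀.1
  have hjrat : (j : FN (M * q)) ∈ Set.range (ratEmb (M * q)) := by
    rw [hj, ← hg]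
    exact ⟨_, (heckeAlphaBar_ratEmb M q g).symm⟩
  exact frobS_stdV hqM A hA hAtop O₁ w hTG K₀ ϖ hϖ j hjrat σ σ' hσ

/-- `FrobS` and `FrobNe` together are `H27.FrobData`. -/
theorem frobData_of_frobS_frobNe {M : ℕ} (D : VData M) (Q : ℕ) (S : FF M ≃+* FF M)
    (S₀ : D.F₀ ≃+* D.F₀) (hS : Fermat.Agent.S35.H27.FrobS D Q S S₀)
    (hN : Fermat.Agent.S35.H27.FrobNe D) : Fermat.Agent.S35.H27.FrobData D Q S S₀ :=
  { ne := hN.ne
    arch₁ := hN.arch₁
    arch₂ := hN.arch₂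
    S_mem₁ := hS.S_mem₁
    S_mem₂ := hS.S_mem₂
    S_V₁ := hS.S_V₁
    S_V₂ := hS.S_V₂
    S_base := hS.S_base
    ι_S := hS.ι_S }

end Fermat.Agent.S35.H65
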